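import Fermat.Prelude.Def_EllipticCurve_FrobeniusTrace
import Mathlib.RingTheory.Invariant.Profinite
import Mathlib.FieldTheory.Galois.Profinite
import Mathlib.FieldTheory.Galois.Infinite
import Mathlib.RingTheory.Valuation.LocalSubring
import Mathlib.RingTheory.Polynomial.Content
import Mathlib.FieldTheory.IsAlgClosed.AlgebraicClosure

/-!
# Existence of Frobenius elements in `Gal(ℚ̄/ℚ)`

Main results (for `L` a Galois extension of `ℚ`, e.g. `AlgebraicClosure ℚ`):

* `exists_liesOverPrime` : for every prime `ℓ` there is a valuation subring of `L` over `ℓ`.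
* `exists_isFrobeniusAt` : for every valuation subring `A` of `L` over the prime `ℓ`
  there is `σ` with `A.IsFrobeniusAt σ ℓ`.
-/

set_option autoImplicit false

namespace Fermat.Agent.Lib.FrobeniusExists

open Polynomial

section Key

variable {B L : Type*} [CommRing B] [Field L] [Algebra B L] [IsIntegrallyClosedIn B L]

theorem exists_mul_eq_of_aeval_eq_zero (V : ValuationSubring L)
    (x : L) (hx : x ∈ V) (n : ℕ) :
    ∀ P : B[X], P.natDegree ≤ n → aeval x P = 0 →
      (∃ i, algebraMap B L (P.coeff i) ∉ V.nonunits) →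
      ∃ s b : B, algebraMap B L s ∉ V.nonunits ∧ algebraMap B L s * x = algebraMap B L b := by
  induction n with
  | zero =>
    intro P hdeg h0 ⟨i, hi⟩
    exfalso
    rw [Nat.le_zero] at hdeg
    rw [eq_C_of_natDegree_eq_zero hdeg, aeval_C] at h0
    apply hi
    rcases Nat.eq_zero_or_pos i with rfl | hpos
    · rw [h0]
      exact (V.mem_nonunits_iff).mpr (by simp)
    · rw [coeff_eq_zero_of_natDegree_lt (by omega), map_zero]
      exact (V.mem_nonunits_iff).mpr (by simp)
  | succ k ih =>
    intro P hdeg h0 ⟨i, hi⟩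
    obtain ⟨b, hb⟩ := IsIntegrallyClosedIn.algebraMap_eq_of_integral
      (isIntegral_leadingCoeff_smul P x h0)
    rw [Algebra.smul_def] at hb
    by_cases ha : algebraMap B L P.leadingCoeff ∈ V.nonunits
    · -- lower the degree
      by_cases hdeg' : P.natDegree ≤ k
      · exact ih P hdeg' h0 ⟨i, hi⟩
      have hdeg'' : P.natDegree = k + 1 := by omega
      have hbn : algebraMap B L b ∈ V.nonunits := by
        rw [hb, ValuationSubring.mem_nonunits_iff, map_mul]
        exact mul_lt_one_of_lt_of_le ((V.mem_nonunits_iff).mp ha)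
          ((V.valuation_le_one_iff x).mpr hx)
      refine ih (P.eraseLead + C b * X ^ k) ?_ ?_ ⟨i, ?_⟩
      · refine (natDegree_add_le _ _).trans (max_le ?_ (natDegree_C_mul_X_pow_le _ _))
        exact (eraseLead_natDegree_le P).trans (by omega)
      · have h1 : aeval x P = aeval x P.eraseLead + algebraMap B L P.leadingCoeff * x ^ (k + 1) := by
          conv_lhs => rw [← eraseLead_add_C_mul_X_pow P]
          rw [hdeg'']
          simp
        rw [map_add, map_mul, aeval_C, map_pow, aeval_X, hb, mul_assoc, ← pow_succ', ← h1, h0]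
      · have hine : i ≠ P.natDegree := by
          rintro rfl
          exact hi ha
        rw [coeff_add, eraseLead_coeff_of_ne _ hine, coeff_C_mul, coeff_X_pow]
        intro hmem
        apply hi
        split_ifs at hmem with hik
        · rw [mul_one, map_add] at hmem
          rw [ValuationSubring.mem_nonunits_iff] at hmem hbn ⊢
          have := V.valuation.map_sub (algebraMap B L (P.coeff i) + algebraMap B L b)
            (algebraMap B L b)
          rw [add_sub_cancel_right] at this
          exact lt_of_le_of_lt this (max_lt hmem hbn)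
        · simpa using hmem
    · exact ⟨P.leadingCoeff, b, ha, hb.symm⟩

end Key

section Int

variable {L : Type*} [Field L] [CharZero L] [Algebra.IsAlgebraic ℤ L]

/-- A valuation subring of an algebraic extension of `ℚ` is a localisation of the ring of all
algebraic integers. -/
theorem exists_mul_eq (V : ValuationSubring L) (x : L) (hx : x ∈ V) :
    ∃ s b : integralClosure ℤ L, (s : L) ∉ V.nonunits ∧ (s : L) * x = (b : L) := by
  obtain ⟨P, hP0, hPx⟩ := Algebra.IsAlgebraic.isAlgebraic (R := ℤ) x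
  -- pass to the primitive part
  have hprim : P.primPart.IsPrimitive := P.isPrimitive_primPart
  have hPx' : aeval x P.primPart = 0 := by
    have h := hPx
    rw [P.eq_C_content_mul_primPart, map_mul, aeval_C] at h
    rcases mul_eq_zero.mp h with h | h
    · exfalso
      have hinj : Function.Injective (algebraMap ℤ L) := by
        intro a b hab
        simpa using hab
      exact (content_eq_zero_iff.not.mpr hP0) (hinj (by rw [h, map_zero]))
    · exact h
  -- some coefficient is a unit of `V`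
  have hcoeff : ∃ i, ((P.primPart.coeff i : ℤ) : L) ∉ V.nonunits := by
    by_contra hcon
    push Not at hcon
    -- the ideal of integers which are non-units of `V`
    let I : Ideal ℤ := (IsLocalRing.maximalIdeal V).comap (algebraMap ℤ V)
    have hI : ∀ n : ℤ, n ∈ I ↔ ((n : ℤ) : L) ∈ V.nonunits := by
      intro n
      rw [Ideal.mem_comap, ValuationSubring.mem_nonunits_iff_exists_mem_maximalIdeal]
      have hn : ((algebraMap ℤ V n : V) : L) = ((n : ℤ) : L) := by simp
      constructor
      · intro h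
        refine ⟨hn ▸ (algebraMap ℤ V n).2, ?_⟩
        convert h
        exact hn.symm
      · rintro ⟨h1, h2⟩
        convert h2
    have hgen : I = Ideal.span {Submodule.IsPrincipal.generator I} :=
      (Ideal.span_singleton_generator I).symm
    have hdvd : C (Submodule.IsPrincipal.generator I) ∣ P.primPart := by
      rw [C_dvd_iff_dvd_coeff]
      intro i
      rw [← Ideal.mem_span_singleton, ← hgen, hI]
      exact hcon i
    have hunit := hprim _ hdvd
    have htop : I = ⊤ := by
      rw [hgen]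
      exact Ideal.span_singleton_eq_top.mpr hunit
    have h1 : (1 : ℤ) ∈ I := by rw [htop]; trivial
    rw [hI, V.mem_nonunits_iff] at h1
    simp at h1
  obtain ⟨i, hi⟩ := hcoeff
  obtain ⟨s, b, hs, hsb⟩ := exists_mul_eq_of_aeval_eq_zero (B := integralClosure ℤ L) V x hx
    _ (P.primPart.map (algebraMap ℤ (integralClosure ℤ L))) le_rfl
    (by rw [aeval_map_algebraMap, hPx'])
    ⟨i, by
      rw [coeff_map, ← IsScalarTower.algebraMap_apply]
      simpa using hi⟩
  exact ⟨s, b, hs, hsb⟩

end Int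

section Galois

open scoped Pointwise

variable {L : Type*} [Field L] [Algebra ℚ L]

/-- The action of the Galois group on the ring of all algebraic integers. -/
@[reducible] noncomputable def galAction : MulSemiringAction (L ≃ₐ[ℚ] L) (integralClosure ℤ L) where
  smul g b := ⟨g b.1, b.2.map (g.toAlgHom.restrictScalars ℤ)⟩
  one_smul _ := rfl
  mul_smul _ _ _ := rfl
  smul_zero g := Subtype.ext (map_zero g)
  smul_add g _ _ := Subtype.ext (map_add g _ _)
  smul_one g := Subtype.ext (map_one g)
  smul_mul g _ _ := Subtype.ext (map_mul g _ _)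

attribute [local instance] galAction

theorem coe_galAction_smul (g : L ≃ₐ[ℚ] L) (b : integralClosure ℤ L) :
    ((g • b : integralClosure ℤ L) : L) = g (b : L) := rfl

theorem isInvariant_integralClosure [IsGalois ℚ L] :
    Algebra.IsInvariant ℤ (integralClosure ℤ L) (L ≃ₐ[ℚ] L) := by
  refine ⟨fun b hb => ?_⟩
  have h1 : (b : L) ∈ (⊥ : IntermediateField ℚ L) :=
    (InfiniteGalois.mem_bot_iff_fixed (b : L)).mpr fun g => congrArg Subtype.val (hb g)
  obtain ⟨q, hq⟩ := IntermediateField.mem_bot.mp h1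
  have h2 : IsIntegral ℤ q := by
    have h3 : IsIntegral ℤ (algebraMap ℚ L q) := hq ▸ b.2
    exact (isIntegral_algebraMap_iff (algebraMap ℚ L).injective).mp h3
  obtain ⟨n, hn⟩ := IsIntegrallyClosed.algebraMap_eq_of_integral h2
  refine ⟨n, Subtype.ext ?_⟩
  rw [← hq, ← hn]
  simp

omit [Algebra ℚ L] in
theorem integralClosure_le (A : ValuationSubring L) (b : integralClosure ℤ L) : (b : L) ∈ A := by
  have h1 : IsIntegral A (b : L) := b.2.tower_top
  obtain ⟨a, ha⟩ := IsIntegrallyClosed.algebraMap_eq_of_integral h1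
  rw [← ha]
  exact a.2

/-- the inclusion of the ring of algebraic integers in a valuation subring -/
def incl (A : ValuationSubring L) : integralClosure ℤ L →+* A where
  toFun b := ⟨b, integralClosure_le A b⟩
  map_one' := rfl
  map_mul' _ _ := rfl
  map_zero' := rfl
  map_add' _ _ := rfl

omit [Algebra ℚ L] in
theorem mem_comap_incl_iff (A : ValuationSubring L) (b : integralClosure ℤ L) :
    b ∈ (IsLocalRing.maximalIdeal A).comap (incl A) ↔ (b : L) ∈ A.nonunits := by
  rw [Ideal.mem_comap, ValuationSubring.mem_nonunits_iff_exists_mem_maximalIdeal]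
  exact ⟨fun h => ⟨integralClosure_le A b, h⟩, fun ⟨_, h⟩ => h⟩

theorem exists_frob_integralClosure [IsGalois ℚ L] (A : ValuationSubring L) {ℓ : ℕ} (hℓ : ℓ.Prime)
    (hA : A.LiesOverPrime ℓ) :
    ∃ σ : L ≃ₐ[ℚ] L, σ • (IsLocalRing.maximalIdeal A).comap (incl A)
        = (IsLocalRing.maximalIdeal A).comap (incl A) ∧
      ∀ b : integralClosure ℤ L, σ • b - b ^ ℓ ∈ (IsLocalRing.maximalIdeal A).comap (incl A) := by
  classical
  set Q : Ideal (integralClosure ℤ L) := (IsLocalRing.maximalIdeal A).comap (incl A) with hQ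
  have : Q.IsPrime := Ideal.comap_isPrime _ _
  let P : Ideal ℤ := Ideal.span {(ℓ : ℤ)}
  have hPmax : P.IsMaximal :=
    PrincipalIdealRing.isMaximal_of_irreducible (Nat.prime_iff_prime_int.mp hℓ).irreducible
  have hℓQ : ((ℓ : ℕ) : integralClosure ℤ L) ∈ Q := by
    rw [hQ, Ideal.mem_comap, map_natCast]
    obtain ⟨h1, h2⟩ := ValuationSubring.mem_nonunits_iff_exists_mem_maximalIdeal.mp hA
    convert h2
    simp
  have hlies : Q.LiesOver P := by
    refine ⟨?_⟩
    refine hPmax.eq_of_le (Ideal.IsPrime.ne_top (Ideal.comap_isPrime _ _)) ?_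
    rw [Ideal.span_singleton_le_iff_mem, Ideal.mem_comap]
    simpa using hℓQ
  let _ : TopologicalSpace (integralClosure ℤ L) := ⊥
  have : DiscreteTopology (integralClosure ℤ L) := ⟨rfl⟩
  have : ContinuousSMul (L ≃ₐ[ℚ] L) (integralClosure ℤ L) := by
    rw [continuousSMul_iff_stabilizer_isOpen]
    intro b
    convert stabilizer_isOpen_of_isIntegral (K := ℚ) (b : L) using 1
    ext g
    simp only [SetLike.mem_coe, MulAction.mem_stabilizer_iff]
    exact Subtype.ext_iff
  have := isInvariant_integralClosure (L := L)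
  have hsurj := Ideal.Quotient.stabilizerHom_surjective_of_profinite (G := L ≃ₐ[ℚ] L) P Q
  have : Q.IsMaximal := Ideal.isMaximal_of_isIntegral_of_isMaximal_comap (R := ℤ) Q
    (by rw [← Ideal.under_def, ← hlies.over]; exact hPmax)
  let _ : Field (integralClosure ℤ L ⧸ Q) := Ideal.Quotient.field Q
  let _ : Field (ℤ ⧸ P) := Ideal.Quotient.field P
  have : CharP (integralClosure ℤ L ⧸ Q) ℓ := by
    rw [CharP.charP_iff_prime_eq_zero hℓ, ← map_natCast (Ideal.Quotient.mk Q)]
    exact Ideal.Quotient.eq_zero_iff_mem.mpr hℓQ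
  have : ExpChar (integralClosure ℤ L ⧸ Q) ℓ := .prime hℓ
  have : Algebra.IsAlgebraic (ℤ ⧸ P) (integralClosure ℤ L ⧸ Q) := by
    have : Algebra.IsIntegral (ℤ ⧸ P) (integralClosure ℤ L ⧸ Q) := inferInstance
    exact Algebra.IsIntegral.isAlgebraic
  let F : (integralClosure ℤ L ⧸ Q) →ₐ[ℤ ⧸ P] (integralClosure ℤ L ⧸ Q) :=
    { frobenius (integralClosure ℤ L ⧸ Q) ℓ with
      commutes' := fun r => by
        obtain ⟨n, rfl⟩ := Ideal.Quotient.mk_surjective r
        simp }
  obtain ⟨σ, hσ⟩ := hsurj (AlgEquiv.ofBijective F (Algebra.IsAlgebraic.algHom_bijective F))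
  refine ⟨σ.1, σ.2, fun b => ?_⟩
  have h1 := DFunLike.congr_fun hσ (Ideal.Quotient.mk Q b)
  rw [← Ideal.Quotient.eq]
  exact h1

theorem apply_mem_of_smul_eq [Algebra.IsAlgebraic ℚ L] (A : ValuationSubring L) (τ : L ≃ₐ[ℚ] L)
    (hτ : τ • (IsLocalRing.maximalIdeal A).comap (incl A)
        = (IsLocalRing.maximalIdeal A).comap (incl A)) (x : L) (hx : x ∈ A) : τ x ∈ A := by
  have : CharZero L := algebraRat.charZero L
  have : Algebra.IsAlgebraic ℤ L :=
    (IsFractionRing.comap_isAlgebraic_iff (A := ℤ) (K := ℚ) (C := L)).mpr inferInstance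
  obtain ⟨s, b, hs, hsb⟩ := exists_mul_eq A x hx
  have h1 : τ s * τ x = τ b := by rw [← map_mul, hsb]
  have h2 : (τ s : L) ∉ A.nonunits := by
    rw [← coe_galAction_smul, ← mem_comap_incl_iff, ← hτ, Ideal.smul_mem_pointwise_smul_iff,
      mem_comap_incl_iff]
    exact hs
  have h3 : A.valuation (τ s) = 1 :=
    le_antisymm ((A.valuation_le_one_iff _).mpr (integralClosure_le A (τ • s)))
      (not_lt.mp fun h => h2 ((A.mem_nonunits_iff).mpr h))
  rw [← A.valuation_le_one_iff]
  have h4 := congrArg A.valuation h1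
  rw [map_mul, h3, one_mul] at h4
  rw [h4]
  exact (A.valuation_le_one_iff _).mpr (integralClosure_le A (τ • b))

/-- **Existence of Frobenius elements.** -/
theorem exists_isFrobeniusAt [IsGalois ℚ L] (A : ValuationSubring L) {ℓ : ℕ} (hℓ : ℓ.Prime)
    (hA : A.LiesOverPrime ℓ) : ∃ σ : L ≃ₐ[ℚ] L, A.IsFrobeniusAt σ ℓ := by
  have : CharZero L := algebraRat.charZero L
  have : Algebra.IsAlgebraic ℤ L :=
    (IsFractionRing.comap_isAlgebraic_iff (A := ℤ) (K := ℚ) (C := L)).mpr inferInstance
  obtain ⟨σ, hσQ, hσ⟩ := exists_frob_integralClosure A hℓ hA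
  have hmem : σ ∈ A.decompositionSubgroup ℚ := by
    rw [MulAction.mem_stabilizer_iff]
    refine le_antisymm ?_ ?_
    · intro y hy
      obtain ⟨x, hx, rfl⟩ := (ValuationSubring.mem_smul_pointwise_iff_exists _ _ _).mp hy
      exact apply_mem_of_smul_eq A σ hσQ x hx
    · rw [ValuationSubring.subset_pointwise_smul_iff]
      intro y hy
      obtain ⟨x, hx, rfl⟩ := (ValuationSubring.mem_smul_pointwise_iff_exists _ _ _).mp hy
      exact apply_mem_of_smul_eq A σ⁻¹ (inv_smul_eq_iff.mpr hσQ.symm) x hx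
  refine ⟨σ, hmem, fun x => ?_⟩
  obtain ⟨a, rfl⟩ := IsLocalRing.residue_surjective x
  obtain ⟨s, b, hs, hsb⟩ := exists_mul_eq A (a : L) a.2
  have hsb' : incl A s * a = incl A b := Subtype.ext hsb
  have hfrob : ∀ c : integralClosure ℤ L,
      IsLocalRing.residue A ((⟨σ, hmem⟩ : A.decompositionSubgroup ℚ) • incl A c)
        = IsLocalRing.residue A (incl A c) ^ ℓ := by
    intro c
    have h1 : (⟨σ, hmem⟩ : A.decompositionSubgroup ℚ) • incl A c = incl A (σ • c) :=
      Subtype.ext rfl
    have h2 := hσ c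
    rw [Ideal.mem_comap, map_sub, map_pow, ← IsLocalRing.residue_eq_zero_iff, map_sub, map_pow,
      sub_eq_zero] at h2
    rw [h1, h2]
  have hs0 : IsLocalRing.residue A (incl A s) ≠ 0 := by
    rw [Ne, IsLocalRing.residue_eq_zero_iff, ← Ideal.mem_comap, mem_comap_incl_iff]
    exact hs
  have h5 := congrArg (fun z => IsLocalRing.residue A ((⟨σ, hmem⟩ : A.decompositionSubgroup ℚ) • z))
    hsb'
  simp only [smul_mul', map_mul, hfrob] at h5
  rw [← hsb', map_mul, mul_pow] at h5
  rw [← IsLocalRing.ResidueField.residue_smul]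
  exact mul_left_cancel₀ (pow_ne_zero ℓ hs0) h5

omit [Algebra ℚ L] in
/-- Every prime has a valuation subring above it. -/
theorem exists_liesOverPrime [CharZero L] {ℓ : ℕ} (hℓ : ℓ.Prime) :
    ∃ A : ValuationSubring L, A.LiesOverPrime ℓ := by
  let R : Subring L := (Int.castRingHom L).range
  let l : R := ⟨(ℓ : L), ⟨(ℓ : ℤ), by simp⟩⟩
  have hne : Ideal.span {l} ≠ ⊤ := by
    rw [Ne, Ideal.span_singleton_eq_top]
    intro hu
    obtain ⟨⟨_, n, rfl⟩, hn⟩ := hu.exists_right_inv
    have h1 : ((ℓ : ℤ) : L) * ((n : ℤ) : L) = 1 := by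
      simpa [l] using congrArg Subtype.val hn
    have h2 : (ℓ : ℤ) * n = 1 := by exact_mod_cast h1
    have h3 : IsUnit (ℓ : ℤ) := IsUnit.of_mul_eq_one _ h2
    exact (Nat.prime_iff_prime_int.mp hℓ).not_isUnit h3
  obtain ⟨A, -, hA⟩ := Ideal.image_subset_nonunits_valuationSubring _ hne
  exact ⟨A, hA ⟨l, Ideal.subset_span rfl, rfl⟩⟩

end Galois

/-- `ℚ̄/ℚ` is Galois, for the `ℚ`-algebra structure `DivisionRing.toRatAlgebra` which is the one
appearing in all the prelude definitions. -/
theorem isGalois_algebraicClosure_rat : IsGalois ℚ (AlgebraicClosure ℚ) :=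
  @IsAlgClosure.isGalois ℚ (AlgebraicClosure ℚ) _ _ (AlgebraicClosure.instAlgebra ℚ) _ _

/-- The form used for `Gal(ℚ̄/ℚ)`: Frobenius elements exist at every place over `ℓ`. -/
theorem exists_isFrobeniusAt_rat (A : ValuationSubring (AlgebraicClosure ℚ)) {ℓ : ℕ}
    (hℓ : ℓ.Prime) (hA : A.LiesOverPrime ℓ) :
    ∃ σ : AlgebraicClosure ℚ ≃ₐ[ℚ] AlgebraicClosure ℚ, A.IsFrobeniusAt σ ℓ :=
  have := isGalois_algebraicClosure_rat
  exists_isFrobeniusAt A hℓ hA

/-- The form used for `Gal(ℚ̄/ℚ)`. -/
theorem exists_frobenius {ℓ : ℕ} (hℓ : ℓ.Prime) :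
    ∃ (A : ValuationSubring (AlgebraicClosure ℚ))
      (σ : AlgebraicClosure ℚ ≃ₐ[ℚ] AlgebraicClosure ℚ),
      A.LiesOverPrime ℓ ∧ A.IsFrobeniusAt σ ℓ := by
  obtain ⟨A, hA⟩ := exists_liesOverPrime (L := AlgebraicClosure ℚ) hℓ
  obtain ⟨σ, hσ⟩ := exists_isFrobeniusAt_rat A hℓ hA
  exact ⟨A, σ, hA, hσ⟩

end Fermat.Agent.Lib.FrobeniusExists
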