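import Fermat.Agent.Lib.Gamma0Cosets.Basic
import Fermat.Agent.Lib.Gamma0Cosets.NumberTheory
import Fermat.Agent.Lib.Gamma0Cosets.FixedPoints
import Fermat.Agent.Lib.Gamma0Cosets.Cusps
import Fermat.Agent.Lib.Gamma0Cosets.Index

/-!
# Combinatorics of `SL(2,ℤ) ⧸ Γ₀(N)`

Main results (namespace `Fermat.Agent.Lib.Gamma0Cosets`):
* `card_quotient`, `index_Gamma0` : the index of `Γ₀(N)` is `dedekindPsi N`;
* `card_fixedBy_S`, `card_fixedBy_ST` : fixed points of `S`, `S * T` are counted by `nuTwo`, `nuThree`;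
* `card_orbits_T` : the number of `T`-orbits is `cuspCount N`.
-/
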