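import Fermat.Agent.Lib.CyclotomicPIDBasic

/-!
# `ℤ[ζ_p]` is a PID for `p = 7, 11, 13`.
-/

set_option autoImplicit false
open NumberField Polynomial InfinitePlace Module Ideal

namespace Fermat.Agent.Lib.CyclotomicPID

variable (K : Type*) [Field K] [NumberField K]

theorem minkowski_aux (p : ℕ) [hp : Fact p.Prime] [IsCyclotomicExtension {p} ℚ K] (c s : ℝ) (B : ℕ)
    (hc : 4 / Real.pi ≤ c) (hs : 0 ≤ s) (hs2 : (p : ℝ) ^ (p - 2) ≤ s ^ 2)
    (hB : c ^ ((p - 1) / 2) * (((p - 1).factorial : ℝ) / ((p - 1 : ℕ) : ℝ) ^ (p - 1) * s) < B + 1) :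
    (4 / Real.pi) ^ nrComplexPlaces K *
      (((finrank ℚ K).factorial : ℝ) / (finrank ℚ K : ℝ) ^ (finrank ℚ K) *
        Real.sqrt |(discr K : ℝ)|) < B + 1 := by
  rw [IsCyclotomicExtension.Rat.discr_prime p K,
    IsCyclotomicExtension.finrank (n := p) K (cyclotomic.irreducible_rat hp.out.pos),
    IsCyclotomicExtension.Rat.nrComplexPlaces_eq_totient_div_two p, Nat.totient_prime hp.out]
  have habs : |(((-1 : ℤ) ^ ((p - 1) / 2) * (p : ℤ) ^ (p - 2) : ℤ) : ℝ)| = (p : ℝ) ^ (p - 2) := by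
    push_cast
    rw [abs_mul, abs_pow, abs_neg, abs_one, one_pow, one_mul, abs_of_nonneg (by positivity)]
  rw [habs]
  have hsqrt : Real.sqrt ((p : ℝ) ^ (p - 2)) ≤ s := by
    rw [Real.sqrt_le_left hs]
    exact hs2
  refine lt_of_le_of_lt ?_ hB
  have hpi : 0 < 4 / Real.pi := by positivity
  have hc0 : 0 ≤ c := hpi.le.trans hc
  gcongr


theorem four_div_pi_le : 4 / Real.pi ≤ 4 / 3.14 := by
  have := Real.pi_gt_d2
  gcongr

theorem ord7_2 : ∀ j ∈ Finset.Ioo 0 3, ((2:ℕ) : ZMod 7) ^ j ≠ 1 := by decide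
theorem ord7_3 : ∀ j ∈ Finset.Ioo 0 2, ((3:ℕ) : ZMod 7) ^ j ≠ 1 := by decide

theorem seven_pid [IsCyclotomicExtension {7} ℚ K] : IsPrincipalIdealRing (𝓞 K) := by
  have : Fact (Nat.Prime 7) := ⟨by norm_num⟩
  have : IsGalois ℚ K := IsCyclotomicExtension.isGalois {7} ℚ K
  apply pid_of_bound K 4
  · apply minkowski_aux K 7 (4 / 3.14) 130 4 four_div_pi_le (by norm_num) (by norm_num)
    norm_num [Nat.factorial]
  · intro q hq hqp
    rw [Finset.mem_Icc] at hq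
    obtain ⟨h1, h2⟩ := hq
    interval_cases q
    · exact absurd hqp (by norm_num)
    · exact exists_prime_of_order (p := 7) K 2 hqp (by norm_num) 4 3 (by norm_num) ord7_2
    · exact exists_prime_of_order (p := 7) K 3 hqp (by norm_num) 4 2 (by norm_num) ord7_3
    · exact absurd hqp (by norm_num)

section
variable {p : ℕ} [hp : Fact p.Prime] [hK : IsCyclotomicExtension {p} ℚ K]

theorem exists_principal_of_root (q : ℕ) [hq : Fact q.Prime] (r : ℤ)
    (hroot : ∑ i ∈ Finset.range p, ((r : ℤ) : ZMod q) ^ i = 0)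
    (α β γ u v : 𝓞 K)
    (h1 : (q : 𝓞 K) = α * β)
    (h2 : (IsCyclotomicExtension.zeta_spec p ℚ K).toInteger - (r : 𝓞 K) = α * γ)
    (h3 : α = q * u + ((IsCyclotomicExtension.zeta_spec p ℚ K).toInteger - (r : 𝓞 K)) * v) :
    ∃ P ∈ primesOver (span {(q : ℤ)}) (𝓞 K), Submodule.IsPrincipal P := by
  have hmap : (X - C r : ℤ[X]).map (Int.castRingHom (ZMod q)) = X - C ((r : ℤ) : ZMod q) := by
    simp
  refine exists_principal_of_factor (p := p) K q (X - C r) ?_ (monic_X_sub_C r) ?_ _ α β γ u v ?_ h1 h2 h3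
  · rw [hmap]; exact irreducible_X_sub_C _
  · rw [hmap, dvd_iff_isRoot, cyclotomic_prime, IsRoot.def, eval_finsetSum]
    simpa using hroot
  · simp

theorem zeta_sum_eq_zero :
    ∑ i ∈ Finset.range p, (IsCyclotomicExtension.zeta_spec p ℚ K).toInteger ^ i = 0 :=
  (IsCyclotomicExtension.zeta_spec p ℚ K).toInteger_isPrimitiveRoot.geom_sum_eq_zero hp.out.one_lt


end

theorem root_11_23 : ∑ i ∈ Finset.range 11, (((4 : ℤ)) : ZMod 23) ^ i = 0 := by decide

theorem principal_11_23 [IsCyclotomicExtension {11} ℚ K] :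
    ∃ P ∈ primesOver (span {((23 : ℕ) : ℤ)}) (𝓞 K), Submodule.IsPrincipal P := by
  have : Fact (Nat.Prime 11) := ⟨by norm_num⟩
  have : Fact (Nat.Prime 23) := ⟨by norm_num⟩
  have hΦ := zeta_sum_eq_zero (p := 11) K
  simp only [Finset.sum_range_succ, Finset.sum_range_zero, zero_add, pow_zero, pow_one] at hΦ
  set ζ := (IsCyclotomicExtension.zeta_spec 11 ℚ K).toInteger with hζ
  refine exists_principal_of_root (p := 11) K 23 4 root_11_23
    (1 + ζ + ζ^3)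
    (-2 - 14*ζ - 17*ζ^2 - 12*ζ^3 - 5*ζ^4 - 9*ζ^5 - 10*ζ^6 - 16*ζ^7 - 6*ζ^8 - 15*ζ^9)
    (1 + 3*ζ + 3*ζ^2 + 2*ζ^3 + ζ^4 + 2*ζ^5 + 2*ζ^6 + 3*ζ^7 + ζ^8 + 3*ζ^9)
    (3) (17 + 4*ζ + ζ^2) ?_ ?_ ?_
  · push_cast
    linear_combination (-(-25 + 9*ζ - 15*ζ^2)) * hΦ
  · push_cast
    linear_combination (-(5 - 2*ζ + 3*ζ^2)) * hΦ
  · push_cast
    ring

theorem root_13_53 : ∑ i ∈ Finset.range 13, (((36 : ℤ)) : ZMod 53) ^ i = 0 := by decide

theorem principal_13_53 [IsCyclotomicExtension {13} ℚ K] :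
    ∃ P ∈ primesOver (span {((53 : ℕ) : ℤ)}) (𝓞 K), Submodule.IsPrincipal P := by
  have : Fact (Nat.Prime 13) := ⟨by norm_num⟩
  have : Fact (Nat.Prime 53) := ⟨by norm_num⟩
  have hΦ := zeta_sum_eq_zero (p := 13) K
  simp only [Finset.sum_range_succ, Finset.sum_range_zero, zero_add, pow_zero, pow_one] at hΦ
  set ζ := (IsCyclotomicExtension.zeta_spec 13 ℚ K).toInteger with hζ
  refine exists_principal_of_root (p := 13) K 53 36 root_13_53
    (1 + ζ + ζ^3)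
    (1 - 24*ζ - 35*ζ^2 - 25*ζ^3 - 10*ζ^4 - 14*ζ^5 - 20*ζ^6 - 29*ζ^7 - 16*ζ^8 - 23*ζ^9 - 7*ζ^10 - 36*ζ^11)
    (17*ζ + 24*ζ^2 + 17*ζ^3 + 7*ζ^4 + 10*ζ^5 + 14*ζ^6 + 20*ζ^7 + 11*ζ^8 + 16*ζ^9 + 5*ζ^10 + 25*ζ^11)
    (881) (1297 + 36*ζ + ζ^2) ?_ ?_ ?_
  · push_cast
    linear_combination (-(-52 + 29*ζ - 36*ζ^2)) * hΦ
  · push_cast
    linear_combination (-(36 - 20*ζ + 25*ζ^2)) * hΦ
  · push_cast
    ring

theorem root_13_131 : ∑ i ∈ Finset.range 13, (((80 : ℤ)) : ZMod 131) ^ i = 0 := by decide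

theorem principal_13_131 [IsCyclotomicExtension {13} ℚ K] :
    ∃ P ∈ primesOver (span {((131 : ℕ) : ℤ)}) (𝓞 K), Submodule.IsPrincipal P := by
  have : Fact (Nat.Prime 13) := ⟨by norm_num⟩
  have : Fact (Nat.Prime 131) := ⟨by norm_num⟩
  have hΦ := zeta_sum_eq_zero (p := 13) K
  simp only [Finset.sum_range_succ, Finset.sum_range_zero, zero_add, pow_zero, pow_one] at hΦ
  set ζ := (IsCyclotomicExtension.zeta_spec 13 ℚ K).toInteger with hζ
  refine exists_principal_of_root (p := 13) K 131 80 root_13_131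
    (1 - ζ - ζ^3)
    (111 + 78*ζ + 17*ζ^2 + 67*ζ^3 + 84*ζ^4 + 40*ζ^5 + 46*ζ^6 + 69*ζ^7 + 48*ζ^8 + 33*ζ^9 + 41*ζ^10 + 28*ζ^11)
    (-68 - 47*ζ - 10*ζ^2 - 41*ζ^3 - 51*ζ^4 - 24*ζ^5 - 28*ζ^6 - 42*ζ^7 - 29*ζ^8 - 20*ζ^9 - 25*ζ^10 - 17*ζ^11)
    (-3909) (-6401 - 80*ζ - ζ^2) ?_ ?_ ?_
  · push_cast
    linear_combination (-(-20 - 13*ζ - 28*ζ^2)) * hΦ
  · push_cast
    linear_combination (-(12 + 8*ζ + 17*ζ^2)) * hΦ
  · push_cast
    ring

theorem root_13_79 : ∑ i ∈ Finset.range 13, (((64 : ℤ)) : ZMod 79) ^ i = 0 := by decide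

theorem principal_13_79 [IsCyclotomicExtension {13} ℚ K] :
    ∃ P ∈ primesOver (span {((79 : ℕ) : ℤ)}) (𝓞 K), Submodule.IsPrincipal P := by
  have : Fact (Nat.Prime 13) := ⟨by norm_num⟩
  have : Fact (Nat.Prime 79) := ⟨by norm_num⟩
  have hΦ := zeta_sum_eq_zero (p := 13) K
  simp only [Finset.sum_range_succ, Finset.sum_range_zero, zero_add, pow_zero, pow_one] at hΦ
  set ζ := (IsCyclotomicExtension.zeta_spec 13 ℚ K).toInteger with hζ
  refine exists_principal_of_root (p := 13) K 79 64 root_13_79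
    (1 + ζ - ζ^4)
    (24 - 25*ζ - 27*ζ^2 + 10*ζ^3 - 3*ζ^4 - 39*ζ^5 - 5*ζ^6 - 2*ζ^7 - 18*ζ^8 - 38*ζ^9 + 16*ζ^10 - 35*ζ^11)
    (-19 + 21*ζ + 22*ζ^2 - 8*ζ^3 + 3*ζ^4 + 32*ζ^5 + 4*ζ^6 + 2*ζ^7 + 15*ζ^8 + 31*ζ^9 - 13*ζ^10 + 29*ζ^11)
    (-212369) (-262143 - 4096*ζ - 64*ζ^2 - ζ^3) ?_ ?_ ?_
  · push_cast
    linear_combination (-(-55 + 54*ζ - 51*ζ^2 + 35*ζ^3)) * hΦ
  · push_cast
    linear_combination (-(45 - 44*ζ + 42*ζ^2 - 29*ζ^3)) * hΦ
  · push_cast
    ring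

theorem root_13_157 : ∑ i ∈ Finset.range 13, (((75 : ℤ)) : ZMod 157) ^ i = 0 := by decide

theorem principal_13_157 [IsCyclotomicExtension {13} ℚ K] :
    ∃ P ∈ primesOver (span {((157 : ℕ) : ℤ)}) (𝓞 K), Submodule.IsPrincipal P := by
  have : Fact (Nat.Prime 13) := ⟨by norm_num⟩
  have : Fact (Nat.Prime 157) := ⟨by norm_num⟩
  have hΦ := zeta_sum_eq_zero (p := 13) K
  simp only [Finset.sum_range_succ, Finset.sum_range_zero, zero_add, pow_zero, pow_one] at hΦ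
  set ζ := (IsCyclotomicExtension.zeta_spec 13 ℚ K).toInteger with hζ
  refine exists_principal_of_root (p := 13) K 157 75 root_13_157
    (1 - ζ + ζ^2 + ζ^4)
    (89 + 86*ζ + 42*ζ^2 + 77*ζ^3 + 67*ζ^4 + 25*ζ^5 + 37*ζ^6 + 56*ζ^7 + 73*ζ^8 + 113*ζ^9 + 124*ζ^10 + 76*ζ^11)
    (-43 - 41*ζ - 20*ζ^2 - 37*ζ^3 - 32*ζ^4 - 12*ζ^5 - 18*ζ^6 - 27*ζ^7 - 35*ζ^8 - 54*ζ^9 - 59*ζ^10 - 36*ζ^11)
    (201568) (421949 + 5626*ζ + 75*ζ^2 + ζ^3) ?_ ?_ ?_
  · push_cast
    linear_combination (-(-68 + 65*ζ + 48*ζ^2 + 76*ζ^3)) * hΦ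
  · push_cast
    linear_combination (-(32 - 31*ζ - 23*ζ^2 - 36*ζ^3)) * hΦ
  · push_cast
    ring


theorem three_eq_zero_poly : (3 : (ZMod 3)[X]) = 0 := by
  have h : ((3 : ℕ) : (ZMod 3)[X]) = 0 := CharP.cast_eq_zero _ 3
  exact_mod_cast h

theorem cubic_no_root : ∀ x : ZMod 3, x ^ 3 - x - 1 ≠ 0 := by decide

theorem principal_13_3 [IsCyclotomicExtension {13} ℚ K] :
    ∃ P ∈ primesOver (span {((3 : ℕ) : ℤ)}) (𝓞 K), Submodule.IsPrincipal P := by
  have : Fact (Nat.Prime 13) := ⟨by norm_num⟩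
  have : Fact (Nat.Prime 3) := ⟨by norm_num⟩
  have hΦ := zeta_sum_eq_zero (p := 13) K
  simp only [Finset.sum_range_succ, Finset.sum_range_zero, zero_add, pow_zero, pow_one] at hΦ
  set ζ := (IsCyclotomicExtension.zeta_spec 13 ℚ K).toInteger with hζ
  have hmap : (X ^ 3 - X - 1 : ℤ[X]).map (Int.castRingHom (ZMod 3)) = X ^ 3 - X - 1 := by
    simp
  refine exists_principal_of_factor (p := 13) K 3 (X ^ 3 - X - 1) ?_ ?_ ?_ (ζ ^ 3 - ζ - 1)
    (1 + ζ - ζ^3)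
    (-1 - ζ^2 - ζ^3 - 2*ζ^5 - ζ^7 - 2*ζ^8 + ζ^9 - 3*ζ^10)
    (-1) 0 (-1) ?_ ?_ ?_ ?_
  · rw [hmap]
    apply irreducible_of_degree_le_three_of_not_isRoot
    · have : (X ^ 3 - X - 1 : (ZMod 3)[X]).natDegree = 3 := by compute_degree!
      rw [this]; decide
    · intro x hx
      apply cubic_no_root x
      simpa [IsRoot.def] using hx
  · monicity!
  · rw [hmap, cyclotomic_prime]
    simp only [Finset.sum_range_succ, Finset.sum_range_zero, zero_add, pow_zero, pow_one]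
    refine ⟨-1 - X^2 - X^3 + X^5 - X^7 + X^8 + X^9, ?_⟩
    linear_combination (X^5 + X^6 + X^9 + X^10) * three_eq_zero_poly
  · simp [ζ]
  · push_cast
    linear_combination (-(-4 + 3*ζ)) * hΦ
  · ring
  · ring

theorem ord11_2 : ∀ j ∈ Finset.Ioo 0 6, ((2:ℕ) : ZMod 11) ^ j ≠ 1 := by decide
theorem ord11_3 : ∀ j ∈ Finset.Ioo 0 4, ((3:ℕ) : ZMod 11) ^ j ≠ 1 := by decide
theorem ord11_5 : ∀ j ∈ Finset.Ioo 0 3, ((5:ℕ) : ZMod 11) ^ j ≠ 1 := by decide
theorem ord11_7 : ∀ j ∈ Finset.Ioo 0 3, ((7:ℕ) : ZMod 11) ^ j ≠ 1 := by decide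

/-- order at least two -/
theorem ord_ge_two (p q : ℕ) (h : q % p ≠ 1 % p) : ∀ j ∈ Finset.Ioo 0 2, (q : ZMod p) ^ j ≠ 1 := by
  intro j hj
  rw [Finset.mem_Ioo] at hj
  have hj1 : j = 1 := by omega
  subst hj1
  rw [pow_one]
  intro h1
  apply h
  have h2 : ((q : ℕ) : ZMod p) = ((1 : ℕ) : ZMod p) := by simpa using h1
  exact (ZMod.natCast_eq_natCast_iff' q 1 p).mp h2

theorem eleven_pid [IsCyclotomicExtension {11} ℚ K] : IsPrincipalIdealRing (𝓞 K) := by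
  have : Fact (Nat.Prime 11) := ⟨by norm_num⟩
  have : IsGalois ℚ K := IsCyclotomicExtension.isGalois {11} ℚ K
  apply pid_of_bound K 60
  · apply minkowski_aux K 11 (4 / 3.14) 48559 60 four_div_pi_le (by norm_num) (by norm_num)
    norm_num [Nat.factorial]
  · intro q hq hqp
    rw [Finset.mem_Icc] at hq
    obtain ⟨h1, h2⟩ := hq
    by_cases h8 : q < 8
    · interval_cases q
      · exact absurd hqp (by norm_num)
      · exact exists_prime_of_order (p := 11) K 2 hqp (by norm_num) 60 6 (by norm_num) ord11_2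
      · exact exists_prime_of_order (p := 11) K 3 hqp (by norm_num) 60 4 (by norm_num) ord11_3
      · exact absurd hqp (by norm_num)
      · exact exists_prime_of_order (p := 11) K 5 hqp (by norm_num) 60 3 (by norm_num) ord11_5
      · exact absurd hqp (by norm_num)
      · exact exists_prime_of_order (p := 11) K 7 hqp (by norm_num) 60 3 (by norm_num) ord11_7
    · by_cases h11 : q = 11
      · subst h11
        obtain ⟨P, hP, hP'⟩ := exists_prime_self (p := 11) K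
        exact ⟨P, hP, Or.inr hP'⟩
      by_cases h23 : q = 23
      · subst h23
        obtain ⟨P, hP, hP'⟩ := principal_11_23 K
        exact ⟨P, hP, Or.inr hP'⟩
      refine exists_prime_of_order (p := 11) K q hqp h11 60 2 (by nlinarith) (ord_ge_two 11 q ?_)
      intro hmod
      have hq' : q = 11 * (q / 11) + 1 := by omega
      have ht : q / 11 ≤ 5 := by omega
      generalize q / 11 = t at hq' ht
      subst hq'
      interval_cases t <;> first | omega | (exact absurd hqp (by norm_num))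

theorem ord13_2 : ∀ j ∈ Finset.Ioo 0 9, ((2:ℕ) : ZMod 13) ^ j ≠ 1 := by decide
theorem ord13_5 : ∀ j ∈ Finset.Ioo 0 4, ((5:ℕ) : ZMod 13) ^ j ≠ 1 := by decide
theorem ord13_7 : ∀ j ∈ Finset.Ioo 0 3, ((7:ℕ) : ZMod 13) ^ j ≠ 1 := by decide
theorem ord13_11 : ∀ j ∈ Finset.Ioo 0 3, ((11:ℕ) : ZMod 13) ^ j ≠ 1 := by decide
theorem ord13_17 : ∀ j ∈ Finset.Ioo 0 3, ((17:ℕ) : ZMod 13) ^ j ≠ 1 := by decide

theorem thirteen_pid [IsCyclotomicExtension {13} ℚ K] : IsPrincipalIdealRing (𝓞 K) := by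
  have : Fact (Nat.Prime 13) := ⟨by norm_num⟩
  have : IsGalois ℚ K := IsCyclotomicExtension.isGalois {13} ℚ K
  apply pid_of_bound K 312
  · apply minkowski_aux K 13 (4 / 3.14) 1338717 312 four_div_pi_le (by norm_num) (by norm_num)
    norm_num [Nat.factorial]
  · intro q hq hqp
    rw [Finset.mem_Icc] at hq
    obtain ⟨h1, h2⟩ := hq
    by_cases h8 : q < 18
    · interval_cases q
      · exact absurd hqp (by norm_num)
      · exact exists_prime_of_order (p := 13) K 2 hqp (by norm_num) 312 9 (by norm_num) ord13_2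
      · obtain ⟨P, hP, hP'⟩ := principal_13_3 K
        exact ⟨P, hP, Or.inr hP'⟩
      · exact absurd hqp (by norm_num)
      · exact exists_prime_of_order (p := 13) K 5 hqp (by norm_num) 312 4 (by norm_num) ord13_5
      · exact absurd hqp (by norm_num)
      · exact exists_prime_of_order (p := 13) K 7 hqp (by norm_num) 312 3 (by norm_num) ord13_7
      · exact absurd hqp (by norm_num)
      · exact absurd hqp (by norm_num)
      · exact absurd hqp (by norm_num)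
      · exact exists_prime_of_order (p := 13) K 11 hqp (by norm_num) 312 3 (by norm_num) ord13_11
      · exact absurd hqp (by norm_num)
      · obtain ⟨P, hP, hP'⟩ := exists_prime_self (p := 13) K
        exact ⟨P, hP, Or.inr hP'⟩
      · exact absurd hqp (by norm_num)
      · exact absurd hqp (by norm_num)
      · exact absurd hqp (by norm_num)
      · exact exists_prime_of_order (p := 13) K 17 hqp (by norm_num) 312 3 (by norm_num) ord13_17
    · by_cases h53 : q = 53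
      · subst h53
        obtain ⟨P, hP, hP'⟩ := principal_13_53 K
        exact ⟨P, hP, Or.inr hP'⟩
      by_cases h79 : q = 79
      · subst h79
        obtain ⟨P, hP, hP'⟩ := principal_13_79 K
        exact ⟨P, hP, Or.inr hP'⟩
      by_cases h131 : q = 131
      · subst h131
        obtain ⟨P, hP, hP'⟩ := principal_13_131 K
        exact ⟨P, hP, Or.inr hP'⟩
      by_cases h157 : q = 157
      · subst h157
        obtain ⟨P, hP, hP'⟩ := principal_13_157 K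
        exact ⟨P, hP, Or.inr hP'⟩
      refine exists_prime_of_order (p := 13) K q hqp (by omega) 312 2 (by nlinarith)
        (ord_ge_two 13 q ?_)
      intro hmod
      have hq' : q = 13 * (q / 13) + 1 := by omega
      have ht : q / 13 ≤ 23 := by omega
      generalize q / 13 = t at hq' ht
      subst hq'
      interval_cases t <;> first | omega | (exact absurd hqp (by norm_num))

end Fermat.Agent.Lib.CyclotomicPID
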