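import Mathlib

/-!
# Tools to prove that `ℤ[ζ_p]` is a PID for small `p` (Minkowski bound + explicit generators).
-/

set_option autoImplicit false

namespace Fermat.Agent.Lib.CyclotomicPID

open NumberField Polynomial InfinitePlace Module Ideal

variable (K : Type*) [Field K] [NumberField K]

/-- Minkowski criterion with an explicit upper bound `B` of the Minkowski constant. -/
theorem pid_of_bound [IsGalois ℚ K] (B : ℕ)
    (hB : (4 / Real.pi) ^ nrComplexPlaces K *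
      (((finrank ℚ K).factorial : ℝ) / (finrank ℚ K : ℝ) ^ (finrank ℚ K) *
        Real.sqrt |(discr K : ℝ)|) < B + 1)
    (h : ∀ q ∈ Finset.Icc 1 B, q.Prime →
      ∃ P ∈ primesOver (span {(q : ℤ)}) (𝓞 K),
        B < q ^ P.inertiaDeg ℤ ∨ Submodule.IsPrincipal P) :
    IsPrincipalIdealRing (𝓞 K) := by
  have hfl : ⌊(4 / Real.pi) ^ nrComplexPlaces K *
      (((finrank ℚ K).factorial : ℝ) / (finrank ℚ K : ℝ) ^ (finrank ℚ K) *
        Real.sqrt |(discr K : ℝ)|)⌋₊ ≤ B := by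
    have : ⌊(4 / Real.pi) ^ nrComplexPlaces K *
      (((finrank ℚ K).factorial : ℝ) / (finrank ℚ K : ℝ) ^ (finrank ℚ K) *
        Real.sqrt |(discr K : ℝ)|)⌋₊ < B + 1 := by
      rw [Nat.floor_lt (by positivity)]
      exact_mod_cast hB
    omega
  apply RingOfIntegers.isPrincipalIdealRing_of_isPrincipal_of_lt_or_isPrincipal_of_mem_primesOver_of_mem_Icc
  intro q hq hqp
  rw [Finset.mem_Icc] at hq
  obtain ⟨P, hP, hP'⟩ := h q (Finset.mem_Icc.mpr ⟨hq.1, hq.2.trans hfl⟩) hqp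
  refine ⟨P, hP, ?_⟩
  rcases hP' with h1 | h1
  · exact Or.inl (lt_of_le_of_lt hfl h1)
  · exact Or.inr h1

variable {p : ℕ} [hp : Fact p.Prime] [hK : IsCyclotomicExtension {p} ℚ K]

/-- A prime `q ≠ p` whose order mod `p` is at least `k`, with `B < q ^ k`. -/
theorem exists_prime_of_order (q : ℕ) (hq : q.Prime) (hqp : q ≠ p) (B k : ℕ) (hk : B < q ^ k)
    (hord : ∀ j ∈ Finset.Ioo 0 k, (q : ZMod p) ^ j ≠ 1) :
    ∃ P ∈ primesOver (span {(q : ℤ)}) (𝓞 K),
      B < q ^ P.inertiaDeg ℤ ∨ Submodule.IsPrincipal P := by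
  have : Fact q.Prime := ⟨hq⟩
  have : (span {(q : ℤ)}).IsPrime :=
    (Int.ideal_span_isMaximal_of_prime q).isPrime
  obtain ⟨⟨P, hP1, hP2⟩⟩ := (span {(q : ℤ)}).nonempty_primesOver (S := 𝓞 K)
  refine ⟨P, ⟨hP1, hP2⟩, Or.inl ?_⟩
  have hndvd : ¬ q ∣ p := fun h => hqp ((Nat.prime_dvd_prime_iff_eq hq hp.out).mp h)
  have hf : P.inertiaDeg ℤ = orderOf (q : ZMod p) :=
    IsCyclotomicExtension.Rat.inertiaDeg_eq_of_not_dvd q K P hndvd
  have hpos : 0 < P.inertiaDeg ℤ := by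
    have : (span {(q : ℤ)}).IsMaximal := Int.ideal_span_isMaximal_of_prime q
    have : P.IsMaximal := .of_liesOver_isMaximal P (span {(q : ℤ)})
    exact inertiaDeg_pos ..
  have hge : k ≤ P.inertiaDeg ℤ := by
    by_contra hlt
    replace hlt := not_le.mp hlt
    exact hord _ (Finset.mem_Ioo.mpr ⟨hpos, hlt⟩) (hf ▸ pow_orderOf_eq_one _)
  exact lt_of_lt_of_le hk (Nat.pow_le_pow_right hq.pos hge)

/-- The prime `p` itself. -/
theorem exists_prime_self :
    ∃ P ∈ primesOver (span {(p : ℤ)}) (𝓞 K), Submodule.IsPrincipal P := by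
  have : (span {(p : ℤ)}).IsPrime :=
    (Int.ideal_span_isMaximal_of_prime p).isPrime
  obtain ⟨⟨P, hP1, hP2⟩⟩ := (span {(p : ℤ)}).nonempty_primesOver (S := 𝓞 K)
  refine ⟨P, ⟨hP1, hP2⟩, ?_⟩
  rw [IsCyclotomicExtension.Rat.eq_span_zeta_sub_one_of_liesOver' p K
    (IsCyclotomicExtension.zeta_spec p ℚ K) P]
  exact ⟨⟨_, rfl⟩⟩

/-- Explicit principal prime above `q`, from a factor `Q` of `Φ_p` mod `q` and certificates. -/
theorem exists_principal_of_factor (q : ℕ) [hq : Fact q.Prime]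
    (Q : ℤ[X]) (hQirr : Irreducible (Q.map (Int.castRingHom (ZMod q)))) (hQmonic : Q.Monic)
    (hQdvd : Q.map (Int.castRingHom (ZMod q)) ∣ cyclotomic p (ZMod q))
    (Qζ α β γ u v : 𝓞 K)
    (hQζ : aeval (IsCyclotomicExtension.zeta_spec p ℚ K).toInteger Q = Qζ)
    (h1 : (q : 𝓞 K) = α * β) (h2 : Qζ = α * γ) (h3 : α = q * u + Qζ * v) :
    ∃ P ∈ primesOver (span {(q : ℤ)}) (𝓞 K), Submodule.IsPrincipal P := by
  classical
  set ζ := (IsCyclotomicExtension.zeta_spec p ℚ K).toInteger with hζdef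
  have h₁ : ¬ q ∣ RingOfIntegers.exponent ζ := by
    rw [RingOfIntegers.exponent_eq_one_iff.mpr <|
      IsCyclotomicExtension.Rat.adjoin_singleton_eq_top (IsCyclotomicExtension.zeta_spec p ℚ K)]
    exact hq.out.not_dvd_one
  have hmin : (minpoly ℤ ζ).map (Int.castRingHom (ZMod q)) = cyclotomic p (ZMod q) := by
    rw [← map_cyclotomic_int, cyclotomic_eq_minpoly (IsCyclotomicExtension.zeta_spec p ℚ K)
      hp.out.pos, ← (IsCyclotomicExtension.zeta_spec p ℚ K).coe_toInteger,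
      ← RingOfIntegers.minpoly_coe ζ]
    rfl
  have hQ : Q.map (Int.castRingHom (ZMod q)) ∈ RingOfIntegers.monicFactorsMod ζ q := by
    rw [Multiset.mem_toFinset, Polynomial.mem_normalizedFactors_iff
      (map_monic_ne_zero (minpoly.monic ζ.isIntegral))]
    exact ⟨hQirr, hQmonic.map _, hmin ▸ hQdvd⟩
  refine ⟨_, ((NumberField.Ideal.primesOverSpanEquivMonicFactorsMod h₁).symm ⟨_, hQ⟩).2, ?_⟩
  rw [NumberField.Ideal.primesOverSpanEquivMonicFactorsMod_symm_apply_eq_span h₁ hQ, hQζ]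
  refine ⟨⟨α, ?_⟩⟩
  apply le_antisymm
  · rw [Ideal.span_le]
    intro x hx
    rcases hx with rfl | hx
    · exact Ideal.mem_span_singleton.mpr ⟨β, h1⟩
    · rw [Set.mem_singleton_iff] at hx
      subst hx
      exact Ideal.mem_span_singleton.mpr ⟨γ, h2⟩
  · change Ideal.span {α} ≤ _
    rw [Ideal.span_singleton_le_iff_mem, h3]
    refine Ideal.add_mem _ (Ideal.mul_mem_right _ _ (Ideal.subset_span (by simp)))
      (Ideal.mul_mem_right _ _ (Ideal.subset_span (by simp)))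

end Fermat.Agent.Lib.CyclotomicPID
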