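/-
Basic arithmetic of the Frey curve of a Frey package: the integral model `freyCurveInt`
base-changes to `freyCurve`, its discriminant and `c₄`, and semistability.
-/
import Mathlib
import Fermat.Prelude.Def_FLTPrelim_FreyPackage
import Fermat.Prelude.Def_FLTPrelim_Modularity

set_option autoImplicit false

namespace Fermat.Agent.Lib.FreyCurveBasic

open FreyPackage WeierstrassCurve

/-- `4 ∣ b^p - 1 - a^p`. -/
theorem four_dvd (P : FreyPackage) : (4 : ℤ) ∣ P.b ^ P.p - 1 - P.a ^ P.p := by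
  have hp5 := P.hp5
  have hb : (2 : ℤ) ∣ P.b := (ZMod.intCast_zmod_eq_zero_iff_dvd P.b 2).1 P.hb2
  have hb4 : (4 : ℤ) ∣ P.b ^ P.p := by
    have h1 : (2 : ℤ) ^ 2 ∣ P.b ^ 2 := pow_dvd_pow_of_dvd hb 2
    have h2 : P.b ^ 2 ∣ P.b ^ P.p := pow_dvd_pow _ (by omega)
    exact (by norm_num : (4 : ℤ) = 2 ^ 2) ▸ h1.trans h2
  have ha : (4 : ℤ) ∣ 1 + P.a ^ P.p := by
    apply (ZMod.intCast_zmod_eq_zero_iff_dvd _ 4).1
    push_cast
    rw [P.ha4]
    obtain ⟨k, hk⟩ := P.hp_odd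
    rw [hk, pow_succ, pow_mul]
    have : (3 : ZMod 4) ^ 2 = 1 := by decide
    rw [this, one_pow]
    decide
  have : P.b ^ P.p - 1 - P.a ^ P.p = P.b ^ P.p - (1 + P.a ^ P.p) := by ring
  rw [this]
  exact dvd_sub hb4 ha

/-- `16 ∣ -(a^p) * b^p`. -/
theorem sixteen_dvd (P : FreyPackage) : (16 : ℤ) ∣ -(P.a ^ P.p) * (P.b ^ P.p) := by
  have hp5 := P.hp5
  have hb : (2 : ℤ) ∣ P.b := (ZMod.intCast_zmod_eq_zero_iff_dvd P.b 2).1 P.hb2
  have hb16 : (16 : ℤ) ∣ P.b ^ P.p := by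
    have h1 : (2 : ℤ) ^ 4 ∣ P.b ^ 4 := pow_dvd_pow_of_dvd hb 4
    have h2 : P.b ^ 4 ∣ P.b ^ P.p := pow_dvd_pow _ (by omega)
    exact (by norm_num : (16 : ℤ) = 2 ^ 4) ▸ h1.trans h2
  exact Dvd.dvd.mul_left hb16 _

theorem four_mul_a₂ (P : FreyPackage) :
    4 * P.freyCurveInt.a₂ = P.b ^ P.p - 1 - P.a ^ P.p :=
  Int.mul_ediv_cancel' (four_dvd P)

theorem sixteen_mul_a₄ (P : FreyPackage) :
    16 * P.freyCurveInt.a₄ = -(P.a ^ P.p) * (P.b ^ P.p) :=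
  Int.mul_ediv_cancel' (sixteen_dvd P)

/-- The integral Frey curve base-changes to the rational Frey curve. -/
theorem freyCurveInt_map (P : FreyPackage) :
    P.freyCurveInt.map (Int.castRingHom ℚ) = P.freyCurve := by
  have h2 := four_mul_a₂ P
  have h4 := sixteen_mul_a₄ P
  have h2' : (4 : ℚ) * (P.freyCurveInt.a₂ : ℚ) = (P.b : ℚ) ^ P.p - 1 - (P.a : ℚ) ^ P.p := by
    exact_mod_cast h2
  have h4' : (16 : ℚ) * (P.freyCurveInt.a₄ : ℚ) = -((P.a : ℚ) ^ P.p) * ((P.b : ℚ) ^ P.p) := by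
    exact_mod_cast h4
  ext
  · simp [freyCurveInt, freyCurve]
  · simp only [WeierstrassCurve.map_a₂, eq_intCast]
    show (P.freyCurveInt.a₂ : ℚ) = ((P.b : ℚ) ^ P.p - 1 - (P.a : ℚ) ^ P.p) / 4
    rw [← h2']; ring
  · simp [freyCurveInt, freyCurve]
  · simp only [WeierstrassCurve.map_a₄, eq_intCast]
    show (P.freyCurveInt.a₄ : ℚ) = -((P.a : ℚ) ^ P.p) * ((P.b : ℚ) ^ P.p) / 16
    rw [← h4']; ring
  · simp [freyCurveInt, freyCurve]

theorem freyCurveInt_isIntegralModelOf (P : FreyPackage) :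
    P.freyCurveInt.IsIntegralModelOf P.freyCurve :=
  ⟨1, by rw [one_smul, freyCurveInt_map]⟩

/-- `c₄ = a^{2p} + a^p b^p + b^{2p}`. -/
theorem freyCurveInt_c₄ (P : FreyPackage) :
    P.freyCurveInt.c₄ = (P.a ^ P.p) ^ 2 + P.a ^ P.p * P.b ^ P.p + (P.b ^ P.p) ^ 2 := by
  have h2 := four_mul_a₂ P
  have h4 := sixteen_mul_a₄ P
  have e1 : P.freyCurveInt.a₁ = 1 := rfl
  have e3 : P.freyCurveInt.a₃ = 0 := rfl
  have e6 : P.freyCurveInt.a₆ = 0 := rfl
  simp only [WeierstrassCurve.c₄, WeierstrassCurve.b₂, WeierstrassCurve.b₄, e1, e3]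
  generalize P.freyCurveInt.a₂ = x at *
  generalize P.freyCurveInt.a₄ = y at *
  generalize P.a ^ P.p = A at *
  generalize P.b ^ P.p = B at *
  have : (1 ^ 2 + 4 * x) = B - A := by linarith
  rw [this]
  linear_combination (-3) * h4

/-- `2^8 Δ = (a^p b^p c^p)^2`. -/
theorem freyCurveInt_Δ (P : FreyPackage) :
    256 * P.freyCurveInt.Δ = (P.a ^ P.p * P.b ^ P.p * P.c ^ P.p) ^ 2 := by
  have h2 := four_mul_a₂ P
  have h4 := sixteen_mul_a₄ P
  have e1 : P.freyCurveInt.a₁ = 1 := rfl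
  have e3 : P.freyCurveInt.a₃ = 0 := rfl
  have e6 : P.freyCurveInt.a₆ = 0 := rfl
  rw [← P.hFLT]
  simp only [WeierstrassCurve.Δ, WeierstrassCurve.b₂, WeierstrassCurve.b₄, WeierstrassCurve.b₆,
    WeierstrassCurve.b₈, e1, e3, e6]
  generalize P.freyCurveInt.a₂ = x at *
  generalize P.freyCurveInt.a₄ = y at *
  generalize P.a ^ P.p = A at *
  generalize P.b ^ P.p = B at *
  have hB : B = 4 * x + 1 + A := by linarith
  subst hB
  have hy : (16 * y) ^ 2 = (-A * (4 * x + 1 + A)) ^ 2 := by rw [h4]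
  have hy3 : (16 * y) ^ 3 = (-A * (4 * x + 1 + A)) ^ 3 := by rw [h4]
  nlinarith [hy, hy3]

theorem freyCurveInt_Δ_ne_zero (P : FreyPackage) : P.freyCurveInt.Δ ≠ 0 := by
  intro h
  have := freyCurveInt_Δ P
  rw [h, mul_zero] at this
  have h0 : P.a ^ P.p * P.b ^ P.p * P.c ^ P.p ≠ 0 :=
    mul_ne_zero (mul_ne_zero (pow_ne_zero _ P.ha0) (pow_ne_zero _ P.hb0)) (pow_ne_zero _ P.hc0)
  exact (pow_ne_zero 2 h0) this.symm

/-- A prime dividing the discriminant divides `a * b * c`. -/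
theorem prime_dvd_abc_of_dvd_Δ (P : FreyPackage) {q : ℕ} (hq : q.Prime)
    (h : (q : ℤ) ∣ P.freyCurveInt.Δ) : (q : ℤ) ∣ P.a * P.b * P.c := by
  have hq' : Prime (q : ℤ) := Nat.prime_iff_prime_int.mp hq
  have h1 : (q : ℤ) ∣ (P.a ^ P.p * P.b ^ P.p * P.c ^ P.p) ^ 2 := by
    rw [← freyCurveInt_Δ]; exact Dvd.dvd.mul_left h _
  have h2 := hq'.dvd_of_dvd_pow h1
  rw [← mul_pow, ← mul_pow] at h2
  exact hq'.dvd_of_dvd_pow h2

/-- An odd prime dividing `a * b * c` divides the discriminant. -/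
theorem dvd_Δ_of_prime_dvd_abc (P : FreyPackage) {q : ℕ} (hq : q.Prime) (hq2 : q ≠ 2)
    (h : (q : ℤ) ∣ P.a * P.b * P.c) : (q : ℤ) ∣ P.freyCurveInt.Δ := by
  have hq' : Prime (q : ℤ) := Nat.prime_iff_prime_int.mp hq
  have h1 : (q : ℤ) ∣ 256 * P.freyCurveInt.Δ := by
    rw [freyCurveInt_Δ, ← mul_pow, ← mul_pow, ← pow_mul]
    exact dvd_pow h (by have := P.hp5; omega)
  rcases hq'.dvd_or_dvd h1 with h2 | h2
  · exfalso
    have h3 : (q : ℤ) ∣ 2 := hq'.dvd_of_dvd_pow (by simpa using h2 : (q : ℤ) ∣ 2 ^ 8)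
    have h4 : q ∣ 2 := by exact_mod_cast h3
    exact hq2 ((Nat.prime_dvd_prime_iff_eq hq Nat.prime_two).1 h4)
  · exact h2

private theorem not_dvd_both {x y : ℤ} (h : gcd x y = 1) {q : ℤ} (hq : Prime q)
    (hx : q ∣ x) (hy : q ∣ y) : False := by
  have : q ∣ gcd x y := dvd_gcd hx hy
  rw [h] at this
  exact hq.not_isUnit (isUnit_of_dvd_one this)

/-- The integral Frey curve is semistable. -/
theorem freyCurveInt_isSemistableModel (P : FreyPackage) : P.freyCurveInt.IsSemistableModel := by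
  intro q hq hΔ hc4
  have hq' : Prime (q : ℤ) := Nat.prime_iff_prime_int.mp hq
  have habc := prime_dvd_abc_of_dvd_Δ P hq hΔ
  rw [freyCurveInt_c₄] at hc4
  have hp0 := P.hp0
  rcases hq'.dvd_or_dvd habc with hab | hc
  · rcases hq'.dvd_or_dvd hab with ha | hb
    · -- q ∣ a, so q ∣ b^(2p)
      have hA : (q : ℤ) ∣ P.a ^ P.p := dvd_pow ha hp0
      have : (q : ℤ) ∣ (P.b ^ P.p) ^ 2 := by
        have h1 : (q : ℤ) ∣ (P.a ^ P.p) ^ 2 + P.a ^ P.p * P.b ^ P.p :=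
          dvd_add (dvd_pow hA two_ne_zero) (Dvd.dvd.mul_right hA _)
        exact (dvd_add_right h1).1 hc4
      exact not_dvd_both P.hgcdab hq' ha (hq'.dvd_of_dvd_pow (hq'.dvd_of_dvd_pow this))
    · have hB : (q : ℤ) ∣ P.b ^ P.p := dvd_pow hb hp0
      have : (q : ℤ) ∣ (P.a ^ P.p) ^ 2 := by
        have h1 : (q : ℤ) ∣ P.a ^ P.p * P.b ^ P.p + (P.b ^ P.p) ^ 2 :=
          dvd_add (Dvd.dvd.mul_left hB _) (dvd_pow hB two_ne_zero)
        rw [add_assoc] at hc4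
        exact (dvd_add_left h1).1 hc4
      exact not_dvd_both P.hgcdab hq' (hq'.dvd_of_dvd_pow (hq'.dvd_of_dvd_pow this)) hb
  · have hC : (q : ℤ) ∣ P.c ^ P.p := dvd_pow hc hp0
    have hAB : (q : ℤ) ∣ P.a ^ P.p * P.b ^ P.p := by
      have e : P.a ^ P.p * P.b ^ P.p = (P.c ^ P.p) ^ 2 -
          ((P.a ^ P.p) ^ 2 + P.a ^ P.p * P.b ^ P.p + (P.b ^ P.p) ^ 2) := by
        rw [← P.hFLT]; ring
      rw [e]
      exact dvd_sub (dvd_pow hC two_ne_zero) hc4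
    rcases hq'.dvd_or_dvd hAB with hA | hB
    · exact not_dvd_both P.hgcdac hq' (hq'.dvd_of_dvd_pow hA) hc
    · exact not_dvd_both P.hgcdbc hq' (hq'.dvd_of_dvd_pow hB) hc

/-- Wiring: modularity of all semistable integral Weierstrass curves gives modularity of
the Frey curve. -/
theorem freyCurve_isModular_of_semistable_modularity
    (h : ∀ W : WeierstrassCurve ℤ, W.Δ ≠ 0 → W.IsSemistableModel →
      (W.map (Int.castRingHom ℚ)).IsModular) (P : FreyPackage) : P.freyCurve.IsModular := by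
  rw [← freyCurveInt_map]
  exact h _ (freyCurveInt_Δ_ne_zero P) (freyCurveInt_isSemistableModel P)

end Fermat.Agent.Lib.FreyCurveBasic
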