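import Mathlib

set_option autoImplicit false

namespace Fermat.Agent.Lib.ScottRee

open MulAction Module

variable {G : Type*} [Group G]

/-- number of orbits of the cyclic group generated by `g` on `X`. -/
noncomputable def orb (X : Type*) [MulAction G X] (g : G) : ℕ :=
  Nat.card (orbitRel.Quotient (Subgroup.zpowers g) X)

variable {X : Type*} [MulAction G X]

/-- the permutation representation on `X → ℚ`. -/
noncomputable def perm (X : Type*) [MulAction G X] (g : G) : (X → ℚ) →ₗ[ℚ] (X → ℚ) :=
  LinearMap.funLeft ℚ ℚ (fun x => g⁻¹ • x)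

@[simp] lemma perm_apply (g : G) (f : X → ℚ) (x : X) : perm X g f x = f (g⁻¹ • x) := rfl

lemma perm_mul (g h : G) (f : X → ℚ) : perm X g (perm X h f) = perm X (g * h) f := by
  ext x
  simp [mul_smul]

lemma perm_single [DecidableEq X] (g : G) (x : X) :
    perm X g (Pi.single x 1) = Pi.single (g • x) 1 := by
  ext y
  simp only [perm_apply, Pi.single_apply]
  by_cases h : y = g • x
  · subst h; simp
  · rw [if_neg h, if_neg]
    intro h'
    exact h (by rw [← h', smul_inv_smul])

/-- invariant functions contain the functions on the orbit space. -/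
lemma orb_le_finrank_ker [Finite X] (g : G) :
    orb X g ≤ finrank ℚ (LinearMap.ker (LinearMap.id - perm X g)) := by
  classical
  have := Fintype.ofFinite X
  let Q := orbitRel.Quotient (Subgroup.zpowers g) X
  have : Finite Q := Quotient.finite _
  have := Fintype.ofFinite Q
  let φ : (Q → ℚ) →ₗ[ℚ] (X → ℚ) := LinearMap.funLeft ℚ ℚ (fun x => (Quotient.mk'' x : Q))
  have hφinj : Function.Injective φ :=
    LinearMap.funLeft_injective_of_surjective ℚ ℚ _ Quotient.mk''_surjective
  have hφker : LinearMap.range φ ≤ LinearMap.ker (LinearMap.id - perm X g) := by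
    rintro _ ⟨f, rfl⟩
    rw [LinearMap.mem_ker]
    ext x
    simp only [LinearMap.sub_apply, LinearMap.id_coe, id_eq, Pi.sub_apply, perm_apply,
      Pi.zero_apply, φ, LinearMap.funLeft_apply]
    rw [sub_eq_zero]
    congr 1
    apply Quotient.sound'
    show x ∈ orbit (Subgroup.zpowers g) (g⁻¹ • x)
    exact ⟨⟨g, Subgroup.mem_zpowers g⟩, by simp [Subgroup.smul_def]⟩
  calc orb X g = finrank ℚ (Q → ℚ) := by
        rw [Module.finrank_fintype_fun_eq_card, orb, Nat.card_eq_fintype_card]
    _ = finrank ℚ (LinearMap.range φ) := (LinearMap.finrank_range_of_inj hφinj).symm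
    _ ≤ _ := Submodule.finrank_mono hφker

lemma finrank_range_le [Finite X] (g : G) :
    finrank ℚ (LinearMap.range (LinearMap.id - perm X g)) + orb X g ≤ Nat.card X := by
  classical
  have := Fintype.ofFinite X
  have h := LinearMap.finrank_range_add_finrank_ker (LinearMap.id - perm X g)
  rw [Module.finrank_fintype_fun_eq_card, ← Nat.card_eq_fintype_card] at h
  have := orb_le_finrank_ker (X := X) g
  omega


/-- A function fixed by `perm a` and `perm b` is invariant under the closure of `{a, b}`. -/
lemma invariant_of_closure {a b : G} (hgen : Subgroup.closure {a, b} = ⊤) {f : X → ℚ}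
    (ha : perm X a f = f) (hb : perm X b f = f) (g : G) (x : X) : f (g • x) = f x := by
  have key : ∀ g ∈ Subgroup.closure ({a, b} : Set G), ∀ x : X, f (g • x) = f x := by
    intro g hg
    induction hg using Subgroup.closure_induction with
    | mem g hg =>
      intro x
      rcases hg with rfl | rfl
      · have := congrFun ha (g • x)
        simpa using this.symm
      · have := congrFun hb (g • x)
        simpa using this.symm
    | one => intro x; simp
    | mul g h _ _ ihg ihh => intro x; rw [mul_smul, ihg, ihh]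
    | inv g _ ih => intro x; rw [← ih (g⁻¹ • x), smul_inv_smul]
  exact key g (hgen ▸ Subgroup.mem_top g) x

/-- **Scott's lemma** for a transitive permutation representation generated by two elements. -/
theorem scott [Finite X] [IsPretransitive G X] [Nonempty X] {a b : G}
    (hgen : Subgroup.closure {a, b} = ⊤) :
    2 * Nat.card X ≤
      finrank ℚ (LinearMap.range (LinearMap.id - perm X a)) +
      finrank ℚ (LinearMap.range (LinearMap.id - perm X b)) +
      finrank ℚ (LinearMap.range (LinearMap.id - perm X (a * b)⁻¹)) + 2 := by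
  classical
  have := Fintype.ofFinite X
  set A := perm X a with hA
  set B := perm X b with hB
  set C := perm X (a * b)⁻¹ with hC
  set RA := LinearMap.range (LinearMap.id - A) with hRA
  set RB := LinearMap.range (LinearMap.id - B) with hRB
  set RC := LinearMap.range (LinearMap.id - C) with hRC
  let β : (X → ℚ) →ₗ[ℚ] (RA × RB × RC) :=
    (LinearMap.id - A).rangeRestrict.prod
      ((LinearMap.id - B).rangeRestrict.prod (LinearMap.id - C).rangeRestrict)
  let δ : (RA × RB × RC) →ₗ[ℚ] (X → ℚ) :=
    (RA.subtype ∘ₗ LinearMap.fst ℚ RA (RB × RC)) +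
      (A ∘ₗ RB.subtype ∘ₗ LinearMap.fst ℚ RB RC ∘ₗ LinearMap.snd ℚ RA (RB × RC)) +
      (perm X (a * b) ∘ₗ RC.subtype ∘ₗ LinearMap.snd ℚ RB RC ∘ₗ LinearMap.snd ℚ RA (RB × RC))
  have hβ1 : ∀ v, ((β v).1 : X → ℚ) = v - A v := fun v => rfl
  have hβ2 : ∀ v, ((β v).2.1 : X → ℚ) = v - B v := fun v => rfl
  have hβ3 : ∀ v, ((β v).2.2 : X → ℚ) = v - C v := fun v => rfl
  have hδ : ∀ u, δ u = (u.1 : X → ℚ) + A (u.2.1 : X → ℚ) + perm X (a * b) (u.2.2 : X → ℚ) :=
    fun u => rfl
  have hδβ : ∀ v, δ (β v) = 0 := by
    intro v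
    have h1 : perm X (a * b) (C v) = v := by
      rw [hC, perm_mul]; ext x; simp
    have h2 : A (B v) = perm X (a * b) v := perm_mul a b v
    rw [hδ, hβ1, hβ2, hβ3, map_sub, map_sub, h1, h2]
    abel
  have hle : LinearMap.range β ≤ LinearMap.ker δ := by
    rintro _ ⟨v, rfl⟩
    exact hδβ v
  -- kernel of β
  obtain ⟨x0⟩ := ‹Nonempty X›
  have hkerβ : LinearMap.ker β ≤ Submodule.span ℚ {(fun _ => 1 : X → ℚ)} := by
    intro f hf
    rw [LinearMap.mem_ker] at hf
    have hfa : A f = f := by
      have := hβ1 f
      rw [hf] at this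
      exact (sub_eq_zero.mp this.symm).symm
    have hfb : B f = f := by
      have := hβ2 f
      rw [hf] at this
      exact (sub_eq_zero.mp this.symm).symm
    rw [Submodule.mem_span_singleton]
    refine ⟨f x0, ?_⟩
    ext x
    obtain ⟨g, rfl⟩ := exists_smul_eq G x0 x
    simp [invariant_of_closure hgen hfa hfb g x0]
  have hkerβ' : finrank ℚ (LinearMap.ker β) ≤ 1 :=
    (Submodule.finrank_mono hkerβ).trans ((finrank_span_le_card _).trans (by simp))
  -- range of δ
  have hmemA : ∀ x : X, (Pi.single x 1 - Pi.single (a • x) 1 : X → ℚ) ∈ LinearMap.range δ := by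
    intro x
    refine ⟨(⟨Pi.single x 1 - A (Pi.single x 1), ⟨Pi.single x 1, rfl⟩⟩, 0, 0), ?_⟩
    rw [hδ]
    simp [hA, perm_single]
  have hmemAB : ∀ x : X,
      (Pi.single x 1 - Pi.single ((a * b) • x) 1 : X → ℚ) ∈ LinearMap.range δ := by
    intro x
    refine ⟨(⟨Pi.single x 1 - A (Pi.single x 1), ⟨Pi.single x 1, rfl⟩⟩,
      ⟨Pi.single x 1 - B (Pi.single x 1), ⟨Pi.single x 1, rfl⟩⟩, 0), ?_⟩
    rw [hδ]
    simp [hA, hB, perm_single, mul_smul]
  have hgen' : Subgroup.closure ({a, a * b} : Set G) = ⊤ := by
    rw [eq_top_iff, ← hgen, Subgroup.closure_le]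
    have ha : a ∈ Subgroup.closure ({a, a * b} : Set G) := Subgroup.subset_closure (by simp)
    have hab : a * b ∈ Subgroup.closure ({a, a * b} : Set G) := Subgroup.subset_closure (by simp)
    intro g hg
    rcases hg with rfl | hg
    · exact ha
    · rw [Set.mem_singleton_iff] at hg
      subst hg
      have := Subgroup.mul_mem _ (Subgroup.inv_mem _ ha) hab
      simpa using this
  have hmem : ∀ g : G, ∀ x : X,
      (Pi.single x 1 - Pi.single (g • x) 1 : X → ℚ) ∈ LinearMap.range δ := by
    have key : ∀ g ∈ Subgroup.closure ({a, a * b} : Set G), ∀ x : X,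
        (Pi.single x 1 - Pi.single (g • x) 1 : X → ℚ) ∈ LinearMap.range δ := by
      intro g hg
      induction hg using Subgroup.closure_induction with
      | mem g hg =>
        intro x
        rcases hg with rfl | hg
        · exact hmemA x
        · rw [Set.mem_singleton_iff] at hg
          subst hg
          exact hmemAB x
      | one => intro x; simp
      | mul g h _ _ ihg ihh =>
        intro x
        have := Submodule.add_mem _ (ihh x) (ihg (h • x))
        rw [mul_smul]
        convert this using 1
        abel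
      | inv g _ ih =>
        intro x
        have := Submodule.neg_mem _ (ih (g⁻¹ • x))
        rw [smul_inv_smul] at this
        convert this using 1
        abel
    intro g
    exact key g (hgen' ▸ Subgroup.mem_top g)
  have htop : LinearMap.range δ ⊔ Submodule.span ℚ {(Pi.single x0 1 : X → ℚ)} = ⊤ := by
    rw [eq_top_iff, ← (Pi.basisFun ℚ X).span_eq, Submodule.span_le]
    rintro _ ⟨x, rfl⟩
    rw [Pi.basisFun_apply]
    obtain ⟨g, rfl⟩ := exists_smul_eq G x0 x
    have h1 : (Pi.single x0 1 - Pi.single (g • x0) 1 : X → ℚ) ∈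
        LinearMap.range δ ⊔ Submodule.span ℚ {(Pi.single x0 1 : X → ℚ)} :=
      Submodule.mem_sup_left (hmem g x0)
    have h2 : (Pi.single x0 1 : X → ℚ) ∈
        LinearMap.range δ ⊔ Submodule.span ℚ {(Pi.single x0 1 : X → ℚ)} :=
      Submodule.mem_sup_right (Submodule.mem_span_singleton_self _)
    have := Submodule.sub_mem _ h2 h1
    simpa using this
  have hrangeδ : Nat.card X ≤ finrank ℚ (LinearMap.range δ) + 1 := by
    have h1 := Submodule.finrank_add_le_finrank_add_finrank (LinearMap.range δ)
      (Submodule.span ℚ {(Pi.single x0 1 : X → ℚ)})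
    rw [htop, finrank_top, Module.finrank_fintype_fun_eq_card, ← Nat.card_eq_fintype_card] at h1
    have h2 : finrank ℚ (Submodule.span ℚ {(Pi.single x0 1 : X → ℚ)}) ≤ 1 :=
      (finrank_span_le_card _).trans (by simp)
    omega
  have h1 := LinearMap.finrank_range_add_finrank_ker β
  have h2 := LinearMap.finrank_range_add_finrank_ker δ
  have h3 := Submodule.finrank_mono hle
  rw [Module.finrank_fintype_fun_eq_card, ← Nat.card_eq_fintype_card] at h1
  rw [Module.finrank_prod, Module.finrank_prod] at h2
  omega


section Parity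

open Equiv.Perm

lemma card_quotient_sameCycle {α : Type*} [Fintype α] [DecidableEq α] (σ : Equiv.Perm α)
    (r : Setoid α) (hr : ∀ x y, r x y ↔ σ.SameCycle x y) :
    Nat.card (Quotient r) + σ.cycleType.sum = Fintype.card α + Multiset.card σ.cycleType := by
  classical
  let F : α → σ.cycleFactorsFinset ⊕ Function.fixedPoints σ := fun x =>
    if h : x ∈ σ.support then Sum.inl ⟨σ.cycleOf x, cycleOf_mem_cycleFactorsFinset_iff.2 h⟩
    else Sum.inr ⟨x, notMem_support.1 h⟩
  have hF : ∀ x y, r x y → F x = F y := by
    intro x y hxy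
    rw [hr] at hxy
    by_cases hx : x ∈ σ.support
    · have hy : y ∈ σ.support := hxy.mem_support_iff.1 hx
      simp only [F, dif_pos hx, dif_pos hy]
      congr 2
      exact hxy.cycleOf_eq
    · have hy : y ∉ σ.support := fun hy => hx (hxy.mem_support_iff.2 hy)
      simp only [F, dif_neg hx, dif_neg hy]
      congr 2
      exact hxy.eq_of_left (notMem_support.1 hx)
  let Fq : Quotient r → σ.cycleFactorsFinset ⊕ Function.fixedPoints σ := Quotient.lift F hF
  have hinj : Function.Injective Fq := by
    intro a b
    induction a using Quotient.inductionOn with | _ x => ?_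
    induction b using Quotient.inductionOn with | _ y => ?_
    intro h
    apply Quotient.sound
    show r x y
    rw [hr]
    change F x = F y at h
    by_cases hx : x ∈ σ.support <;> by_cases hy : y ∈ σ.support
    · simp only [F, dif_pos hx, dif_pos hy, Sum.inl.injEq, Subtype.mk.injEq] at h
      exact (sameCycle_iff_cycleOf_eq_of_mem_support hx hy).2 h
    · simp only [F, dif_pos hx, dif_neg hy, reduceCtorEq] at h
    · simp only [F, dif_neg hx, dif_pos hy, reduceCtorEq] at h
    · simp only [F, dif_neg hx, dif_neg hy, Sum.inr.injEq] at h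
      have h' : x = y := congrArg Subtype.val h
      rw [h']
  have hsurj : Function.Surjective Fq := by
    rintro (⟨c, hc⟩ | ⟨x, hx⟩)
    · have hcyc := (mem_cycleFactorsFinset_iff.1 hc).1
      obtain ⟨a, ha⟩ := hcyc.nonempty_support
      have ha' : a ∈ σ.support := mem_cycleFactorsFinset_support_le hc ha
      refine ⟨Quotient.mk r a, ?_⟩
      change F a = _
      simp only [F, dif_pos ha']
      congr 2
      exact (cycle_is_cycleOf ha hc).symm
    · refine ⟨Quotient.mk r x, ?_⟩
      change F x = _
      have hx' : x ∉ σ.support := notMem_support.2 hx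
      simp only [F, dif_neg hx']
  have hcard := Nat.card_congr (Equiv.ofBijective Fq ⟨hinj, hsurj⟩)
  rw [hcard, Nat.card_eq_fintype_card, Fintype.card_sum, card_fixedPoints, Fintype.card_coe,
    cycleType_def, Multiset.card_map]
  have := σ.sum_cycleType_le
  rw [cycleType_def] at this
  change σ.cycleFactorsFinset.card + _ + _ = _ + σ.cycleFactorsFinset.card
  omega


lemma orb_add_sum_cycleType [Fintype X] [DecidableEq X] (g : G) :
    orb X g + (MulAction.toPerm g : Equiv.Perm X).cycleType.sum =
      Fintype.card X + Multiset.card (MulAction.toPerm g : Equiv.Perm X).cycleType := by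
  apply card_quotient_sameCycle
  intro x y
  have hpow : ∀ k : ℤ, ((MulAction.toPerm g : Equiv.Perm X) ^ k) y = g ^ k • y := by
    intro k
    have : (MulAction.toPerm g : Equiv.Perm X) ^ k = MulAction.toPerm (g ^ k) :=
      (map_zpow (MulAction.toPermHom G X) g k).symm
    rw [this]
    rfl
  constructor
  · rintro ⟨⟨h, k, rfl⟩, hk⟩
    refine SameCycle.symm ⟨k, ?_⟩
    rw [hpow]
    exact hk
  · intro h
    obtain ⟨k, hk⟩ := h.symm
    rw [hpow] at hk
    exact ⟨⟨g ^ k, k, rfl⟩, hk⟩

lemma sign_toPerm [Fintype X] [DecidableEq X] (g : G) :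
    Equiv.Perm.sign (MulAction.toPerm g : Equiv.Perm X) = (-1 : ℤˣ) ^ (Fintype.card X + orb X g) := by
  rw [sign_of_cycleType]
  have h := orb_add_sum_cycleType (X := X) g
  set s := (MulAction.toPerm g : Equiv.Perm X).cycleType.sum
  set c := Multiset.card (MulAction.toPerm g : Equiv.Perm X).cycleType
  have h2 : Fintype.card X + orb X g + 2 * c = s + c + 2 * orb X g := by omega
  have h3 : ((-1 : ℤˣ)) ^ (Fintype.card X + orb X g + 2 * c) = (-1) ^ (s + c + 2 * orb X g) := by
    rw [h2]
  simpa [pow_add, pow_mul] using h3.symm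

end Parity

lemma orb_inv (g : G) : orb X g⁻¹ = orb X g := by
  unfold orb
  rw [Subgroup.zpowers_inv]

/-- Parity: `n + orb a + orb b + orb (a * b)` is even. -/
theorem even_card_add_orb [Finite X] (a b : G) :
    Even (Nat.card X + orb X a + orb X b + orb X (a * b)) := by
  classical
  have := Fintype.ofFinite X
  have h : Equiv.Perm.sign (MulAction.toPerm (a * b) : Equiv.Perm X) =
      Equiv.Perm.sign (MulAction.toPerm a : Equiv.Perm X) *
        Equiv.Perm.sign (MulAction.toPerm b : Equiv.Perm X) := by
    rw [← map_mul]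
    congr 1
    exact map_mul (MulAction.toPermHom G X) a b
  rw [sign_toPerm, sign_toPerm, sign_toPerm, ← pow_add] at h
  have h2 : ((-1 : ℤˣ)) ^ ((Fintype.card X + orb X (a * b)) +
      (Fintype.card X + orb X a + (Fintype.card X + orb X b))) = 1 := by
    rw [pow_add, h, ← pow_add, ← two_mul, pow_mul]
    simp
  rw [neg_one_pow_eq_one_iff_even (by decide)] at h2
  rw [Nat.card_eq_fintype_card]
  have h3 : Fintype.card X + orb X (a * b) +
      (Fintype.card X + orb X a + (Fintype.card X + orb X b)) =
      (Fintype.card X + orb X a + orb X b + orb X (a * b)) + 2 * Fintype.card X := by ring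
  rw [h3, Nat.even_add] at h2
  exact h2.2 (even_two_mul _)

/-- **Ree's inequality** (via Scott's lemma). -/
theorem ree [Finite X] [IsPretransitive G X] [Nonempty X] {a b : G}
    (hgen : Subgroup.closure {a, b} = ⊤) :
    orb X a + orb X b + orb X (a * b) ≤ Nat.card X + 2 := by
  have h := scott (X := X) hgen
  have ha := finrank_range_le (X := X) a
  have hb := finrank_range_le (X := X) b
  have hc := finrank_range_le (X := X) (a * b)⁻¹
  rw [orb_inv] at hc
  omega

/-- The "genus" of a transitive two-generator permutation action is a natural number. -/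
theorem exists_genus [Finite X] [IsPretransitive G X] [Nonempty X] {a b : G}
    (hgen : Subgroup.closure {a, b} = ⊤) :
    ∃ g : ℕ, 2 * g + orb X a + orb X b + orb X (a * b) = Nat.card X + 2 := by
  have h1 := ree (X := X) hgen
  obtain ⟨k, hk⟩ := even_card_add_orb (X := X) a b
  refine ⟨Nat.card X + 1 - k, ?_⟩
  omega

open scoped MatrixGroups in
/-- Specialisation to `SL(2,ℤ) ⧸ Γ` for a finite index subgroup `Γ`. -/
theorem exists_genus_SL2Z (Γ : Subgroup SL(2, ℤ)) [Γ.FiniteIndex] :
    ∃ g : ℕ, 2 * g + orb (SL(2, ℤ) ⧸ Γ) ModularGroup.S + orb (SL(2, ℤ) ⧸ Γ) ModularGroup.T +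
      orb (SL(2, ℤ) ⧸ Γ) (ModularGroup.S * ModularGroup.T) = Nat.card (SL(2, ℤ) ⧸ Γ) + 2 :=
  exists_genus SpecialLinearGroup.SL2Z_generators

end Fermat.Agent.Lib.ScottRee
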